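import Fermat.Agent.MF.PeriodGamma.Basic
import Mathlib.GroupTheory.Schreier
import Mathlib.LinearAlgebra.Matrix.FixedDetMatrices
import Mathlib.LinearAlgebra.Dimension.Constructions

/-!
Finite dimensionality from the period embedding.
-/

set_option autoImplicit false

noncomputable section

namespace Fermat.Agent.MF.PeriodGamma

open Complex ModularCurve
open Matrix.SpecialLinearGroup
open scoped MatrixGroups

theorem groupFG_SL2Z : Group.FG SL(2, ℤ) :=
  Group.fg_iff.mpr ⟨{ModularGroup.S, ModularGroup.T}, SpecialLinearGroup.SL2Z_generators,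
    Set.toFinite _⟩

variable (Γ : Subgroup SL(2, ℤ)) [Γ.FiniteIndex]

theorem finite_parabolicHoms (R : Type*) [CommRing R] [IsNoetherianRing R] :
    Module.Finite R (Period.parabolicHoms R Γ R) := by
  have := groupFG_SL2Z
  obtain ⟨s, hs⟩ := Group.fg_iff.mp (inferInstance : Group.FG Γ)
  obtain ⟨hs, hfin⟩ := hs
  have := hfin.to_subtype
  have : Fintype s := Fintype.ofFinite s
  let ev : Period.parabolicHoms R Γ R →ₗ[R] (s → R) :=
    { toFun := fun φ x => (φ : Additive Γ →+ R) (Additive.ofMul (x : Γ))
      map_add' := fun φ ψ => rfl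
      map_smul' := fun c φ => rfl }
  refine Module.Finite.of_injective ev fun φ ψ h => Subtype.ext ?_
  refine DFunLike.ext _ _ fun x => ?_
  obtain ⟨γ, rfl⟩ := Additive.ofMul.surjective x
  have hγ : γ ∈ Subgroup.closure s := hs ▸ Subgroup.mem_top γ
  induction hγ using Subgroup.closure_induction with
  | mem y hy => exact congrFun h ⟨y, hy⟩
  | one => simp
  | mul y z _ _ h1 h2 => rw [ofMul_mul, map_add, map_add, h1, h2]
  | inv y _ h1 => rw [ofMul_inv, map_neg, map_neg, h1]

theorem finiteDimensional_cuspForm : FiniteDimensional ℂ (CuspForm Γ 2) := by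
  have := finite_parabolicHoms Γ ℂ
  refine Module.Finite.of_injective ((periodsLin Γ).codRestrict
    (Period.parabolicHoms ℂ Γ ℂ) (periods_mem_parabolicHoms Γ)) fun f g h => ?_
  exact injective_periods Γ (congrArg Subtype.val h)

theorem finrank_cuspForm_le :
    2 * Module.finrank ℂ (CuspForm Γ 2) ≤ Module.finrank ℝ (Period.parabolicHoms ℝ Γ ℝ) := by
  have := finite_parabolicHoms Γ ℝ
  have := finiteDimensional_cuspForm Γ
  refine le_of_eq_of_le (show _ = Module.finrank ℝ (CuspForm Γ 2) by
    rw [← Module.finrank_mul_finrank ℝ ℂ (CuspForm Γ 2), Complex.finrank_real_complex]) ?_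
  exact LinearMap.finrank_le_finrank_of_injective
    (f := (rePeriods Γ).codRestrict (Period.parabolicHoms ℝ Γ ℝ) (rePeriods_mem_parabolicHoms Γ))
    fun f g h => injective_rePeriods Γ (congrArg Subtype.val h)

end Fermat.Agent.MF.PeriodGamma
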