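import Fermat.Agent.MF.Primitive
import Mathlib.Analysis.Complex.AbsMax
import Mathlib.NumberTheory.ModularForms.Cusps

/-!
A maximum principle for holomorphic functions with invariant real part.
-/

set_option autoImplicit false

noncomputable section

namespace Fermat.Agent.MF.PeriodGamma

open UpperHalfPlane hiding I
open Complex Filter Topology Function ModularCurve
open Matrix.SpecialLinearGroup Fermat.Agent.MF.Prim
open scoped MatrixGroups ModularForm Manifold ComplexConjugate

/-- If the real part of a holomorphic function on a connected domain has a maximum then the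
function is constant. -/
theorem eqOn_const_of_re_le {U : Set ℂ} {H : ℂ → ℂ} {c : ℂ} (ho : IsOpen U)
    (hc : IsPreconnected U) (hd : DifferentiableOn ℂ H U) (hcU : c ∈ U)
    (hle : ∀ z ∈ U, (H z).re ≤ (H c).re) : ∀ z ∈ U, H z = H c := by
  have hm : IsMaxOn (norm ∘ fun z => Complex.exp (H z)) U c := fun z hz => by
    simpa [Complex.norm_exp] using hle z hz
  have he := Complex.eqOn_of_isPreconnected_of_isMaxOn_norm hc ho hd.cexp hcU hm
  have h0 : U.EqOn (deriv H) 0 := fun z hz => by
    have h1 : HasDerivAt (fun z => Complex.exp (H z)) (Complex.exp (H z) * deriv H z) z :=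
      ((hd.differentiableAt (ho.mem_nhds hz)).hasDerivAt).cexp
    have h2 : HasDerivAt (fun z => Complex.exp (H z)) 0 z :=
      (hasDerivAt_const z (Complex.exp (H c))).congr_of_eventuallyEq
        (Filter.eventually_of_mem (ho.mem_nhds hz) fun w hw => he hw)
    exact (mul_eq_zero.mp (h1.unique h2)).resolve_left (Complex.exp_ne_zero _)
  obtain ⟨a, ha⟩ := ho.exists_is_const_of_deriv_eq_zero hc hd h0
  intro z hz
  rw [ha z hz, ha c hcU]

variable (Γ : Subgroup SL(2, ℤ))

/-- Representatives for right cosets. -/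
def cosetRep (q : SL(2, ℤ) ⧸ Γ) : SL(2, ℤ) := q.out⁻¹

theorem exists_eq_mul_cosetRep (g : SL(2, ℤ)) :
    ∃ γ : Γ, ∃ q : SL(2, ℤ) ⧸ Γ, g = (γ : SL(2, ℤ)) * cosetRep Γ q := by
  obtain ⟨γ, hγ⟩ := QuotientGroup.mk_out_eq_mul Γ g⁻¹
  refine ⟨γ, (g⁻¹ : SL(2, ℤ)), ?_⟩
  rw [cosetRep, hγ]
  simp

/-- A holomorphic function whose real part is `Γ`-invariant, and which is periodic with
limits at all cusps, is constant. -/
theorem eq_const_of_re_invariant [Γ.FiniteIndex] {n : ℝ} (hn : 0 < n) {H : ℍ → ℂ} (hol : MDiff H)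
    (hinv : ∀ (γ : Γ) (z : ℍ), (H ((γ : SL(2, ℤ)) • z)).re = (H z).re)
    (hcusp : ∀ δ : SL(2, ℤ), ∃ L : ℂ, Tendsto (fun w => H (δ • w)) atImInfty (𝓝 L) ∧
      Periodic ((fun w => H (δ • w)) ∘ ofComplex) (n : ℂ))
    (z z' : ℍ) : H z = H z' := by
  have : Fintype (SL(2, ℤ) ⧸ Γ) := Fintype.ofFinite _
  choose L hL hper using hcusp
  have hcov : ∀ z : ℍ, ∃ (γ : Γ) (q : SL(2, ℤ) ⧸ Γ) (w : ℍ),
      w ∈ ModularGroup.fd ∧ z = (γ : SL(2, ℤ)) • cosetRep Γ q • w := by
    intro z
    obtain ⟨g, hg⟩ := ModularGroup.exists_smul_mem_fd z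
    obtain ⟨γ, q, hγq⟩ := exists_eq_mul_cosetRep Γ g⁻¹
    exact ⟨γ, q, g • z, hg, by rw [← mul_smul, ← hγq, inv_smul_smul]⟩
  obtain ⟨q₀, -, hq₀⟩ := Finset.exists_max_image Finset.univ
    (fun q => (L (cosetRep Γ q)).re) Finset.univ_nonempty
  have hfinal : ∀ (r : SL(2, ℤ)) (z₀ : ℍ), (∀ w : ℍ, H (r • w) = H (r • z₀)) →
      H z = H z' := fun r z₀ h => by
    have h1 := h (r⁻¹ • z)
    have h2 := h (r⁻¹ • z')
    rw [smul_inv_smul] at h1 h2
    rw [h1, h2]
  by_cases hbig : ∃ z₀, (L (cosetRep Γ q₀)).re < (H z₀).re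
  · obtain ⟨z₀, hz₀⟩ := hbig
    have hev : ∀ᶠ w in atImInfty, ∀ q, (H (cosetRep Γ q • w)).re < (H z₀).re :=
      Filter.eventually_all.mpr fun q =>
        ((Complex.continuous_re.tendsto _).comp (hL (cosetRep Γ q))).eventually_lt_const
          ((hq₀ q (Finset.mem_univ q)).trans_lt hz₀)
    obtain ⟨Y, hY⟩ := atImInfty_mem _ |>.mp hev
    obtain ⟨γ₀, q₁, w₀, hw₀, hz₀eq⟩ := hcov z₀
    have hval : (H (cosetRep Γ q₁ • w₀)).re = (H z₀).re := by rw [hz₀eq, hinv]
    have hw₀K : w₀ ∈ ModularGroup.truncatedFundamentalDomain Y :=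
      ⟨hw₀, le_of_lt (not_le.mp fun h => (hY w₀ h q₁).ne hval)⟩
    have hex : ∀ q, ∃ w ∈ ModularGroup.truncatedFundamentalDomain Y,
        IsMaxOn (fun w => (H (cosetRep Γ q • w)).re)
          (ModularGroup.truncatedFundamentalDomain Y) w := fun q =>
      (ModularGroup.isCompact_truncatedFundamentalDomain Y).exists_isMaxOn ⟨w₀, hw₀K⟩
        (Complex.continuous_re.comp (hol.continuous.comp
          (continuous_const_smul (mapGL ℝ (cosetRep Γ q) : GL (Fin 2) ℝ)))).continuousOn
    choose w hwK hwmax using hex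
    obtain ⟨qs, -, hqs⟩ := Finset.exists_max_image Finset.univ
      (fun q => (H (cosetRep Γ q • w q)).re) Finset.univ_nonempty
    have hmax : ∀ x : ℍ, (H x).re ≤ (H (cosetRep Γ qs • w qs)).re := by
      intro x
      obtain ⟨γ, q, v, hv, rfl⟩ := hcov x
      rw [hinv]
      rcases le_or_gt v.im Y with h | h
      · exact le_trans (hwmax q ⟨hv, h⟩) (hqs q (Finset.mem_univ q))
      · refine (hY v h.le q).le.trans ?_
        rw [← hval]
        exact le_trans (hwmax q₁ hw₀K) (hqs q₁ (Finset.mem_univ q₁))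
    have h := eqOn_const_of_re_le isOpen_upperHalfPlaneSet
      (convex_halfSpace_im_gt 0).isPreconnected (UpperHalfPlane.mdifferentiable_iff.mp hol)
      (c := ((cosetRep Γ qs • w qs : ℍ) : ℂ)) (cosetRep Γ qs • w qs).im_pos
      (fun u hu => by
        simpa [ofComplex_apply_of_im_pos hu] using hmax ⟨u, hu⟩)
    refine hfinal 1 (cosetRep Γ qs • w qs) fun x => ?_
    simpa using h (x : ℂ) x.im_pos
  · push Not at hbig
    set r := cosetRep Γ q₀
    have hbdd : IsBoundedAtImInfty (fun w => H (r • w)) := (hL r).isBigO_one ℝ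
    have hd : MDiff (fun w => H (r • w)) := by
      rw [UpperHalfPlane.mdifferentiable_iff]
      intro u hu
      have h1 : DifferentiableAt ℂ (H ∘ ofComplex) ((r • ofComplex u : ℍ) : ℂ) :=
        (UpperHalfPlane.mdifferentiable_iff.mp hol).differentiableAt
          (isOpen_upperHalfPlaneSet.mem_nhds (r • ofComplex u).im_pos)
      have h2 := (hasDerivAt_coe_smul r ⟨u, hu⟩).differentiableAt
      refine ((h1.comp u h2).congr_of_eventuallyEq ?_).differentiableWithinAt
      exact Filter.Eventually.of_forall fun v => by simp [ofComplex_apply]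
    have hdiff := differentiableOn_cuspFunction_ball hn (hper r) hd hbdd
    have h0 : UpperHalfPlane.cuspFunction n (fun w => H (r • w)) 0 = L r := by
      rw [UpperHalfPlane.cuspFunction_apply_zero hn
        (analyticAt_cuspFunction_zero hn (hper r) hd hbdd) (hper r)]
      exact (hL r).limUnder_eq
    have h := eqOn_const_of_re_le Metric.isOpen_ball (convex_ball 0 1).isPreconnected hdiff
      (Metric.mem_ball_self one_pos) (fun q hq => by
        rw [h0]
        rcases eq_or_ne q 0 with rfl | hq0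
        · rw [h0]
        · have him := Function.Periodic.im_invQParam_pos_of_norm_lt_one hn
            (mem_ball_zero_iff.mp hq) hq0
          have he := eq_cuspFunction ⟨_, him⟩ hn.ne' (hper r)
          rw [show ((⟨_, him⟩ : ℍ) : ℂ) = Function.Periodic.invQParam n q from rfl,
            Function.Periodic.qParam_right_inv hn.ne' hq0] at he
          rw [he]
          exact hbig _)
    have hc : ∀ v : ℍ, H (r • v) = L r := fun v => by
      have := h _ (mem_ball_zero_iff.mpr (Function.Periodic.norm_qParam_lt_one hn v.im_pos))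
      rwa [eq_cuspFunction v hn.ne' (hper r), h0] at this
    exact hfinal r z fun v => by rw [hc, hc]

end Fermat.Agent.MF.PeriodGamma
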