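import Fermat.Agent.MF.PeriodParabolic
import Fermat.Agent.MF.PeriodGamma.MaxPrinciple

/-!
Periods of weight two cusp forms on a finite-index subgroup of `SL(2, ℤ)`:
`f ↦` periods is linear, lands in the parabolic homomorphisms, and the pairs
`(f, g) ↦` periods of `f` + conjugate periods of `g` are faithful.
-/

set_option autoImplicit false

noncomputable section

namespace Fermat.Agent.MF.PeriodGamma

open UpperHalfPlane hiding I
open Complex Filter Topology Function ModularCurve
open Matrix.SpecialLinearGroup Fermat.Agent.MF.Prim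
open scoped MatrixGroups ModularForm Manifold ComplexConjugate

variable (Γ : Subgroup SL(2, ℤ))

/-- A common period of all cusps of `Γ`. -/
def width : ℕ := Γ.normalCore.index

theorem conj_T_zpow_width_mem (δ : SL(2, ℤ)) :
    δ * ModularGroup.T ^ (width Γ : ℤ) * δ⁻¹ ∈ Γ :=
  Γ.normalCore_le (Γ.normalCore_normal.conj_mem _
    (by rw [zpow_natCast]; exact Γ.normalCore.pow_index_mem _) δ)

theorem slash_eq_of_mem {k : ℤ} (f : CuspForm Γ k) {γ : SL(2, ℤ)} (hγ : γ ∈ Γ) :
    (⇑f) ∣[k] γ = ⇑f := by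
  rw [ModularForm.SL_slash]
  exact SlashInvariantFormClass.slash_action_eq f _ ⟨γ, hγ, rfl⟩

theorem slash_periodic {k : ℤ} (f : CuspForm Γ k) (δ : SL(2, ℤ)) :
    Periodic (((⇑f) ∣[k] δ) ∘ ofComplex) ((width Γ : ℝ) : ℂ) := by
  have h := periodic_of_forall_T_zpow (f := (⇑f) ∣[k] δ) (n := (width Γ : ℤ)) fun w => by
    have h2 : ((⇑f) ∣[k] δ) ∣[k] (ModularGroup.T ^ (width Γ : ℤ)) = (⇑f) ∣[k] δ := by
      rw [← SlashAction.slash_mul,
        show δ * ModularGroup.T ^ (width Γ : ℤ) =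
          δ * ModularGroup.T ^ (width Γ : ℤ) * δ⁻¹ * δ by group,
        SlashAction.slash_mul, slash_eq_of_mem Γ f (conj_T_zpow_width_mem Γ δ)]
    have h3 := congrFun h2 w
    rw [ModularForm.SL_slash_apply (f := (⇑f) ∣[k] δ)] at h3
    rw [ModularGroup.denom_apply, ModularGroup.coe_T_zpow] at h3
    simpa using h3
  simpa using h

variable [Γ.FiniteIndex]

theorem width_pos : (0 : ℝ) < width Γ :=
  Nat.cast_pos.mpr (Nat.pos_of_ne_zero Subgroup.FiniteIndex.index_ne_zero)

theorem slash_isZeroAtImInfty {k : ℤ} (f : CuspForm Γ k) (δ : SL(2, ℤ)) :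
    IsZeroAtImInfty ((⇑f) ∣[k] δ) := by
  have hc : IsCusp ((mapGL ℝ δ) • OnePoint.infty) (Γ.map (mapGL ℝ)) :=
    (Subgroup.IsArithmetic.isCusp_iff_isCusp_SL2Z _).mpr (isCusp_SL2Z_iff'.mpr ⟨δ, rfl⟩)
  exact OnePoint.isZeroAt_iff rfl |>.mp (CuspFormClass.zero_at_cusps f hc)

theorem exists_slash_primitive (f : CuspForm Γ 2) (δ : SL(2, ℤ)) :
    ∃ F : ℍ → ℂ, IsPrimitiveOf F ((⇑f) ∣[(2 : ℤ)] δ) ∧ Tendsto F atImInfty (𝓝 0) ∧
      Periodic (F ∘ ofComplex) ((width Γ : ℝ) : ℂ) :=
  exists_primitive (width_pos Γ) (slash_periodic Γ f δ)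
    ((CuspFormClass.holo f).slash 2 _) (slash_isZeroAtImInfty Γ f δ)

/-- The primitive of a weight two cusp form vanishing at infinity. -/
def prim (f : CuspForm Γ 2) : ℍ → ℂ := (exists_slash_primitive Γ f 1).choose

theorem prim_isPrimitiveOf (f : CuspForm Γ 2) : IsPrimitiveOf (prim Γ f) f := by
  have h := (exists_slash_primitive Γ f 1).choose_spec.1
  intro τ
  have h2 := h τ
  rwa [congrFun (SlashAction.slash_one (2 : ℤ) (⇑f)) τ] at h2

theorem prim_tendsto (f : CuspForm Γ 2) : Tendsto (prim Γ f) atImInfty (𝓝 0) :=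
  (exists_slash_primitive Γ f 1).choose_spec.2.1

/-- At every cusp the primitive is periodic with a limit. -/
theorem prim_cusp (f : CuspForm Γ 2) (δ : SL(2, ℤ)) :
    ∃ L : ℂ, Tendsto (fun w => prim Γ f (δ • w)) atImInfty (𝓝 L) ∧
      Periodic ((fun w => prim Γ f (δ • w)) ∘ ofComplex) ((width Γ : ℝ) : ℂ) := by
  obtain ⟨G, hG, hG0, hGp⟩ := exists_slash_primitive Γ f δ
  refine ⟨prim Γ f (δ • UpperHalfPlane.I) - G UpperHalfPlane.I, ?_, fun z => ?_⟩
  · have : (fun w => prim Γ f (δ • w)) =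
        fun w => G w + (prim Γ f (δ • UpperHalfPlane.I) - G UpperHalfPlane.I) :=
      funext fun w => by
        linear_combination ((prim_isPrimitiveOf Γ f).comp_smul δ).sub_eq hG w UpperHalfPlane.I
    rw [this]
    simpa using hG0.add_const (prim Γ f (δ • UpperHalfPlane.I) - G UpperHalfPlane.I)
  · have e := fun w => ((prim_isPrimitiveOf Γ f).comp_smul δ).sub_eq hG w UpperHalfPlane.I
    have h1 := hGp z
    simp only [comp_apply] at h1 ⊢
    linear_combination e (ofComplex (z + ((width Γ : ℝ) : ℂ))) - e (ofComplex z) + h1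

theorem prim_equivariant (f : CuspForm Γ 2) :
    Period.IsEquivariantPrimitive Γ (prim Γ f) := fun γ => by
  refine ⟨prim Γ f ((γ : SL(2, ℤ)) • UpperHalfPlane.I) - prim Γ f UpperHalfPlane.I, fun z => ?_⟩
  have h := (prim_isPrimitiveOf Γ f).comp_smul (γ : SL(2, ℤ))
  rw [slash_eq_of_mem Γ f γ.2] at h
  exact h.sub_eq (prim_isPrimitiveOf Γ f) z UpperHalfPlane.I

theorem prim_add (f g : CuspForm Γ 2) : prim Γ (f + g) = prim Γ f + prim Γ g := by
  refine IsPrimitiveOf.eq_of_tendsto (prim_isPrimitiveOf Γ _) ?_ (prim_tendsto Γ _)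
    (by simpa [Pi.add_def] using (prim_tendsto Γ f).add (prim_tendsto Γ g))
  simpa using (prim_isPrimitiveOf Γ f).add (prim_isPrimitiveOf Γ g)

theorem prim_smul (c : ℂ) (f : CuspForm Γ 2) : prim Γ (c • f) = c • prim Γ f := by
  refine IsPrimitiveOf.eq_of_tendsto (prim_isPrimitiveOf Γ _) ?_ (prim_tendsto Γ _)
    (by simpa [Pi.smul_def] using (prim_tendsto Γ f).const_smul c)
  simpa using (prim_isPrimitiveOf Γ f).const_smul c

/-- The periods of `f`. -/
def periods (f : CuspForm Γ 2) : Additive Γ →+ ℂ := (prim_equivariant Γ f).periodHom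

theorem periods_eq (f : CuspForm Γ 2) (γ : Γ) (z : ℍ) :
    periods Γ f (Additive.ofMul γ) = prim Γ f ((γ : SL(2, ℤ)) • z) - prim Γ f z :=
  ((prim_equivariant Γ f).sub_eq_period γ z).symm

theorem periods_eq' (f : CuspForm Γ 2) (x : Additive Γ) (z : ℍ) :
    periods Γ f x =
      prim Γ f (((Additive.toMul x : Γ) : SL(2, ℤ)) • z) - prim Γ f z :=
  periods_eq Γ f (Additive.toMul x) z

/-- The period map as a linear map. -/
def periodsLin : CuspForm Γ 2 →ₗ[ℂ] (Additive Γ →+ ℂ) where
  toFun := periods Γ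
  map_add' f g := AddMonoidHom.ext fun x => by
    rw [AddMonoidHom.add_apply]
    simp only [periods_eq' Γ _ x UpperHalfPlane.I, prim_add, Pi.add_apply]
    ring
  map_smul' c f := AddMonoidHom.ext fun x => by
    rw [RingHom.id_apply, AddMonoidHom.smul_apply]
    simp only [periods_eq' Γ _ x UpperHalfPlane.I, prim_smul, Pi.smul_apply, smul_eq_mul]
    ring

@[simp] theorem periodsLin_apply (f : CuspForm Γ 2) : periodsLin Γ f = periods Γ f := rfl

theorem periods_mem_parabolicHoms (f : CuspForm Γ 2) :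
    periods Γ f ∈ Period.parabolicHoms ℂ Γ ℂ := by
  rw [Period.mem_parabolicHoms_iff]
  intro γ hγ
  obtain ⟨δ, m, hm⟩ := exists_conj_T_zpow _ hγ
  obtain ⟨L, hL, -⟩ := prim_cusp Γ f δ
  have h2 := (hL.comp (smul_T_zpow_tendsto m)).sub hL
  have hconst : (fun w : ℍ => ((fun w => prim Γ f (δ • w)) ∘ fun w : ℍ =>
      ModularGroup.T ^ m • w) w - prim Γ f (δ • w)) =
      fun _ => periods Γ f (Additive.ofMul γ) := funext fun w => by
    rw [periods_eq Γ f γ (δ • w), hm w]
    rfl
  rw [hconst, sub_self, tendsto_const_nhds_iff] at h2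
  exact h2

/-- Composition with complex conjugation. -/
def conjHom (φ : Additive Γ →+ ℂ) : Additive Γ →+ ℂ :=
  (starRingEnd ℂ).toAddMonoidHom.comp φ

omit [Γ.FiniteIndex] in
@[simp] theorem conjHom_apply (φ : Additive Γ →+ ℂ) (x : Additive Γ) :
    conjHom Γ φ x = conj (φ x) := rfl

omit [Γ.FiniteIndex] in
theorem conjHom_mem_parabolicHoms {φ : Additive Γ →+ ℂ}
    (hφ : φ ∈ Period.parabolicHoms ℂ Γ ℂ) : conjHom Γ φ ∈ Period.parabolicHoms ℂ Γ ℂ := by
  rw [Period.mem_parabolicHoms_iff] at hφ ⊢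
  intro γ hγ
  rw [conjHom_apply, hφ γ hγ, map_zero]

/-- If the periods of `f` and the conjugate periods of `g` cancel, then `f = 0` and `g = 0`. -/
theorem eq_zero_of_periods_add_conj_eq_zero (f g : CuspForm Γ 2)
    (h : periods Γ f + conjHom Γ (periods Γ g) = 0) : f = 0 ∧ g = 0 := by
  have hinv : ∀ (γ : Γ) (z : ℍ),
      prim Γ f ((γ : SL(2, ℤ)) • z) + conj (prim Γ g ((γ : SL(2, ℤ)) • z)) =
        prim Γ f z + conj (prim Γ g z) := fun γ z => by
    have h1 := DFunLike.congr_fun h (Additive.ofMul γ)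
    simp only [AddMonoidHom.add_apply, conjHom_apply, periods_eq Γ _ γ z,
      AddMonoidHom.zero_apply, map_sub] at h1
    linear_combination h1
  have key : ∀ a : ℂ, ∀ z z' : ℍ,
      a * prim Γ f z + conj a * prim Γ g z = a * prim Γ f z' + conj a * prim Γ g z' := by
    intro a
    refine eq_const_of_re_invariant Γ (width_pos Γ)
      (H := fun z => a * prim Γ f z + conj a * prim Γ g z) ?_ ?_ ?_
    · exact (((prim_isPrimitiveOf Γ f).const_smul a).add
        ((prim_isPrimitiveOf Γ g).const_smul (conj a))).mdiff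
    · intro γ z
      have key : ∀ w, (a * prim Γ f w + conj a * prim Γ g w).re =
          (a * (prim Γ f w + conj (prim Γ g w))).re := fun w => by
        rw [mul_add, add_re, add_re, ← conj_re (conj a * prim Γ g w), map_mul, Complex.conj_conj]
      rw [key, key, hinv]
    · intro δ
      obtain ⟨b, hb, hbp⟩ := prim_cusp Γ f δ
      obtain ⟨c, hc, hcp⟩ := prim_cusp Γ g δ
      exact ⟨_, (hb.const_mul a).add (hc.const_mul (conj a)),
        fun z => by
          simp only [comp_apply] at *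
          have h1 := hbp z
          have h2 := hcp z
          simp only [comp_apply] at h1 h2
          rw [h1, h2]⟩
  have hf : ∀ z z', prim Γ f z = prim Γ f z' := fun z z' => by
    have h1 := key 1 z z'
    have h2 := key I z z'
    simp only [map_one, one_mul, conj_I] at h1 h2
    refine mul_left_cancel₀ (mul_ne_zero two_ne_zero I_ne_zero) ?_
    linear_combination I * h1 + h2
  have hg : ∀ z z', prim Γ g z = prim Γ g z' := fun z z' => by
    have h1 := key 1 z z'
    simpa [hf z z'] using h1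
  have zero_of_const : ∀ u : CuspForm Γ 2, (∀ z z', prim Γ u z = prim Γ u z') → u = 0 :=
    fun u hu => by
      ext τ
      have h1 : HasDerivAt (prim Γ u ∘ ofComplex) 0 (τ : ℂ) :=
        (hasDerivAt_const (τ : ℂ) (prim Γ u τ)).congr_of_eventuallyEq
          (Filter.Eventually.of_forall fun v => hu _ _)
      simpa using (prim_isPrimitiveOf Γ u τ).unique h1
  exact ⟨zero_of_const f hf, zero_of_const g hg⟩

theorem injective_periods_add_conj :
    Function.Injective fun p : CuspForm Γ 2 × CuspForm Γ 2 =>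
      periods Γ p.1 + conjHom Γ (periods Γ p.2) := by
  intro p q hpq
  have h := eq_zero_of_periods_add_conj_eq_zero Γ (p.1 - q.1) (p.2 - q.2) ?_
  · exact Prod.ext (sub_eq_zero.mp h.1) (sub_eq_zero.mp h.2)
  · refine DFunLike.ext _ _ fun x => ?_
    have h1 := DFunLike.congr_fun hpq x
    simp only [AddMonoidHom.add_apply, conjHom_apply] at h1
    rw [← periodsLin_apply Γ (p.1 - q.1), ← periodsLin_apply Γ (p.2 - q.2), map_sub, map_sub]
    simp only [periodsLin_apply, AddMonoidHom.add_apply, conjHom_apply, AddMonoidHom.sub_apply,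
      AddMonoidHom.zero_apply, map_sub]
    linear_combination h1

theorem injective_periods : Function.Injective (periods Γ) := fun f g h => by
  have := injective_periods_add_conj Γ (a₁ := (f, 0)) (a₂ := (g, 0))
    (by simp only [h])
  exact congrArg Prod.fst this

/-- The real parts of the periods. -/
def rePeriods : CuspForm Γ 2 →ₗ[ℝ] (Additive Γ →+ ℝ) where
  toFun f := Complex.reAddGroupHom.comp (periods Γ f)
  map_add' f g := by
    refine DFunLike.ext _ _ fun x => ?_
    rw [← periodsLin_apply Γ (f + g), map_add]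
    simp
  map_smul' c f := by
    refine DFunLike.ext _ _ fun x => ?_
    have hcf : c • f = (c : ℂ) • f := by ext τ; simp
    rw [RingHom.id_apply, AddMonoidHom.smul_apply, hcf, ← periodsLin_apply Γ ((c : ℂ) • f),
      map_smul]
    simp

@[simp] theorem rePeriods_apply (f : CuspForm Γ 2) (x : Additive Γ) :
    rePeriods Γ f x = (periods Γ f x).re := rfl

theorem rePeriods_mem_parabolicHoms (f : CuspForm Γ 2) :
    rePeriods Γ f ∈ Period.parabolicHoms ℝ Γ ℝ := by
  rw [Period.mem_parabolicHoms_iff]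
  intro γ hγ
  rw [rePeriods_apply, periods_mem_parabolicHoms Γ f γ hγ, zero_re]

theorem injective_rePeriods : Function.Injective (rePeriods Γ) := by
  rw [← LinearMap.ker_eq_bot, LinearMap.ker_eq_bot']
  intro f hf
  refine (eq_zero_of_periods_add_conj_eq_zero Γ f f ?_).1
  refine DFunLike.ext _ _ fun x => ?_
  have h1 := DFunLike.congr_fun hf x
  rw [rePeriods_apply, AddMonoidHom.zero_apply] at h1
  simp [Complex.add_conj, h1]

variable {Γ} {Γ' : Subgroup SL(2, ℤ)} [Γ'.FiniteIndex]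

/-- Functoriality in `δ` with `f' = f ∣[2] δ`: the periods of `f'` at `γ'` are those of `f` at `γ`
whenever `γ δ = δ γ'`. -/
theorem periods_slash (f : CuspForm Γ 2) (f' : CuspForm Γ' 2) (δ : SL(2, ℤ))
    (h : ⇑f' = (⇑f) ∣[(2 : ℤ)] δ) (γ : Γ) (γ' : Γ')
    (hγ : (γ : SL(2, ℤ)) * δ = δ * γ') :
    periods Γ' f' (Additive.ofMul γ') = periods Γ f (Additive.ofMul γ) := by
  have hp : IsPrimitiveOf (fun w => prim Γ f (δ • w)) f' := by
    rw [h]
    exact (prim_isPrimitiveOf Γ f).comp_smul δ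
  have h1 := hp.sub_eq (prim_isPrimitiveOf Γ' f') ((γ' : SL(2, ℤ)) • UpperHalfPlane.I)
    UpperHalfPlane.I
  rw [periods_eq Γ' f' γ' UpperHalfPlane.I, periods_eq Γ f γ (δ • UpperHalfPlane.I),
    ← mul_smul (γ : SL(2, ℤ)) δ, hγ, mul_smul]
  linear_combination -h1

theorem periods_of_le (hle : Γ' ≤ Γ) (f : CuspForm Γ 2) (f' : CuspForm Γ' 2)
    (h : ⇑f' = ⇑f) (γ' : Γ') :
    periods Γ' f' (Additive.ofMul γ') = periods Γ f (Additive.ofMul ⟨γ', hle γ'.2⟩) :=
  periods_slash f f' 1 (by simpa using h) _ _ (by simp)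

/-- A `χ(δ)`-eigenform for a normalising element `δ` has `χ(δ)`-twisted periods. -/
theorem periods_eigen (f : CuspForm Γ 2) (δ : SL(2, ℤ)) (c : ℂ)
    (h : (⇑f) ∣[(2 : ℤ)] δ = c • ⇑f) (γ γ' : Γ) (hγ : (γ : SL(2, ℤ)) * δ = δ * γ') :
    c * periods Γ f (Additive.ofMul γ') = periods Γ f (Additive.ofMul γ) := by
  have h1 := periods_slash f (c • f) δ (by rw [h]; rfl) γ γ' hγ
  rw [← periodsLin_apply Γ (c • f), map_smul] at h1
  simpa using h1

end Fermat.Agent.MF.PeriodGamma
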